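import Fermat.Agent.S38.H59.MinZeroCore
import Fermat.Agent.S59.MFree.H779.AuxKer

/-!
# Cell (B2) of the S59 moonshot, leaf IA-MINZERO, piece Z4 = KERCOR-LOC WITHOUT (Ell) (helper31)

`eq_zero_of_cor_eq_zero_aux31` : the statement of `S38.H59.eq_zero_of_cor_eq_zero59` with the
hypothesis `5 ≤ p` (only used for (Ell): the elements of finite order of `Γ₀(M)` die under `κ`)
replaced by an AUXILIARY PRIME `r ∤ M`:

* (Ell at `r`) the elements of finite order of `Γ₀(M) ∩ Γ₀(r)` die under `κ`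
  (`MFree.H779.ellAux_h779`: automatic if `D` is a `3`-group and `r ≡ 2 mod 3`);
* `T_r = heckeKer hr κ hΓ1` is ONTO on the image `e X` of the projector.

If `cor` vanishes on `e X`, then `e X = 0`.

Proof: `x = T_r y` with `y ∈ e X`; `cor y = 0`, so `T_r y ∈ I_D X`
(`MFree.H779.heckeKer_mem_augSub`, no (Ell) on `Γ₀(M)` needed); hence `V = e X ⊆ I_D V`, and the
Nakayama argument of helper59 (`le_of_le_sup_map_nilp59`, `exists_sub_one_pow_eq59`) gives
`V ⊆ ϖ V`, so `V = 0` by separatedness.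
-/

set_option autoImplicit false
set_option linter.style.haveILetI false
set_option linter.unusedSectionVars false

namespace Fermat.Agent.S38.H31

open CongruenceSubgroup Matrix.SpecialLinearGroup
open Fermat.Agent.S59.MFree Fermat.Agent.S59.MFree.H587 Fermat.Agent.S59.MFree.H941
open Fermat.Agent.S38.H59
open scoped MatrixGroups

/-- **Z4 = KERCOR-LOC for every odd `p`, auxiliary prime form.** -/
theorem eq_zero_of_cor_eq_zero_aux31 {p : ℕ} [Fact p.Prime] (hp2 : p ≠ 2) {M : ℕ} (hM : M ≠ 0)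
    {D : Type} [Group D] [Fintype D] (κ : Gamma0 M →* D)
    (hΓ1 : ∀ γ : Gamma0 M, ((((γ : SL(2, ℤ)) 1 1 : ℤ)) : ZMod M) = 1 → κ γ = 1)
    (hκ : Function.Surjective κ) (hcard : ∃ n : ℕ, Fintype.card D = p ^ n)
    {𝒪 : Type} [CommRing 𝒪] [IsDomain 𝒪] [CharZero 𝒪] (ϖ : 𝒪) (hpϖ : ϖ ∣ (p : 𝒪))
    (hsep : ∀ a : 𝒪, (∀ n : ℕ, ϖ ^ n ∣ a) → a = 0)
    (e : (Additive (kerSub κ) →+ 𝒪) →ₗ[𝒪] (Additive (kerSub κ) →+ 𝒪))
    (he : ∀ x, e (e x) = e x)
    (hcomm : ∀ (g : Gamma0 M) x, e (conjAct κ g x) = conjAct κ g (e x))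
    (hcor : ∀ x, e x = x → cor κ x = 0)
    {r : ℕ} [Fact r.Prime] (hr : ¬ r ∣ M)
    (hellr : ∀ g : Gamma0 M, (g : SL(2, ℤ)) ∈ Gamma0 r → IsOfFinOrder g → κ g = 1)
    (hsurj : ∀ y, e y = y → ∃ x, e x = x ∧ heckeKer hr κ hΓ1 x = y) :
    ∀ x, e x = x → x = 0 := by
  classical
  obtain ⟨n, hn⟩ := hcard
  haveI : NeZero M := ⟨hM⟩
  have hp : p.Prime := Fact.out
  have hpowD : ∀ d : D, d ^ (p ^ n) = 1 := fun d => by
    rw [← hn]
    exact pow_card_eq_one
  -- the operators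
  let X : Type := Additive (kerSub κ) →+ 𝒪
  let sec : D → Gamma0 M := Function.surjInv hκ
  have hsec : ∀ d, κ (sec d) = d := Function.surjInv_eq hκ
  let δ : D → Module.End 𝒪 X := fun d => H761.conjL κ (sec d)
  let s : D → Module.End 𝒪 X := fun d => δ d - 1
  let V : Submodule 𝒪 X := LinearMap.range e
  let B : Submodule 𝒪 X := V.map (ϖ • (1 : Module.End 𝒪 X))
  have hVe : ∀ x ∈ V, e x = x := by
    rintro x ⟨y, rfl⟩
    exact he y
  have heV : ∀ x, e x ∈ V := fun x => ⟨x, rfl⟩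
  have hconj_comm : ∀ g g' : Gamma0 M, Commute (H761.conjL (O := 𝒪) κ g)
      (H761.conjL κ g') := by
    intro g g'
    apply LinearMap.ext
    intro φ
    show H761.conjL κ g (H761.conjL κ g' φ) = H761.conjL κ g' (H761.conjL κ g φ)
    rw [H761.conjL_apply, H761.conjL_apply, H761.conjL_apply, H761.conjL_apply,
      ← H761.conjAct_mul, ← H761.conjAct_mul]
    apply H57.conjAct_congr57
    apply kappa_congr κ hΓ1
    rw [eisD_mul, eisD_mul, mul_comm]
  have hss : ∀ d d', Commute (s d) (s d') := by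
    intro d d'
    exact commute_sub_one59 (E := Module.End 𝒪 X) (δ d) (δ d') (hconj_comm _ _)
  have hes : ∀ d x, e (s d x) = s d (e x) := by
    intro d x
    show e (conjAct κ (sec d) x - x) = conjAct κ (sec d) (e x) - e x
    rw [map_sub, hcomm]
  have hW : ∀ d, V.map (s d) ≤ V := by
    rintro d x ⟨y, hy, rfl⟩
    rw [← hVe y hy, ← hes]
    exact heV _
  have hB : ∀ d, B.map (s d) ≤ B := by
    rintro d x ⟨y, ⟨v, hv, rfl⟩, rfl⟩
    refine ⟨s d v, hW d ⟨v, hv, rfl⟩, ?_⟩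
    simp only [LinearMap.smul_apply, Module.End.one_apply, map_smul]
  have hWpow : ∀ d (k : ℕ), V.map ((s d) ^ k) ≤ V := by
    intro d k
    induction k with
    | zero =>
      rintro x ⟨y, hy, rfl⟩
      simpa using hy
    | succ k ih =>
      rintro x ⟨y, hy, rfl⟩
      rw [pow_succ, Module.End.mul_apply]
      exact ih ⟨s d y, hW d ⟨y, hy, rfl⟩, rfl⟩
  have hδpow : ∀ d, (δ d) ^ p ^ n = 1 := by
    intro d
    show (H761.conjL κ (sec d)) ^ p ^ n = 1
    rw [conjL_pow59]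
    apply LinearMap.ext
    intro φ
    rw [H761.conjL_apply, Module.End.one_apply]
    have h1 : κ (sec d ^ p ^ n) = κ 1 := by rw [map_pow, hpowD, map_one]
    rw [H57.conjAct_congr57 κ φ h1.symm, H761.conjAct_one]
  obtain ⟨u, hu⟩ := hpϖ
  have hnil : ∀ d, ∃ k : ℕ, V.map ((s d) ^ k) ≤ B := by
    intro d
    refine ⟨p ^ n, ?_⟩
    obtain ⟨r', hr', -⟩ := exists_sub_one_pow_eq59 (E := Module.End 𝒪 X) hp hp2 (δ d) n (hδpow d)
    rintro x ⟨v, hv, rfl⟩
    have h1 : ((s d) ^ p ^ n) v ∈ V := hWpow d _ ⟨v, hv, rfl⟩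
    have h2 : ((s d) ^ p ^ n) v = (p : 𝒪) • r' v := by
      show ((δ d - 1) ^ p ^ n) v = _
      rw [hr', Module.End.mul_apply]
      have h3 : ((p : ℕ) : Module.End 𝒪 X) = (p : 𝒪) • (1 : Module.End 𝒪 X) := by
        rw [Nat.cast_smul_eq_nsmul, nsmul_eq_mul, mul_one]
      rw [h3, LinearMap.smul_apply, Module.End.one_apply]
    refine ⟨u • e (r' v), V.smul_mem u (heV _), ?_⟩
    rw [LinearMap.smul_apply, Module.End.one_apply, smul_smul, ← hu, ← map_smul, ← h2]
    exact hVe _ h1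
  have hker : V ≤ (⨆ d ∈ (Finset.univ : Finset D), V.map (s d)) ⊔ B := by
    intro x hx
    apply Submodule.mem_sup_left
    have hex : e x = x := hVe x hx
    -- the auxiliary prime: `x = T_r y`, `cor y = 0`
    obtain ⟨y, hy, hyx⟩ := hsurj x hex
    have hmem : x ∈ augSub κ 𝒪 := by
      rw [← hyx]
      exact H779.heckeKer_mem_augSub hr κ hΓ1 hellr 𝒪 y (hcor y hy)
    unfold augSub at hmem
    rw [← hex]
    refine AddSubgroup.closure_induction
      (p := fun w _ => e w ∈ ⨆ d ∈ (Finset.univ : Finset D), V.map (s d)) ?_ ?_ ?_ ?_ hmem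
    · rintro w ⟨g, y, -, rfl⟩
      refine Submodule.mem_iSup_of_mem (κ g)
        (Submodule.mem_iSup_of_mem (Finset.mem_univ _) ⟨e y, heV y, ?_⟩)
      show H761.conjL κ (sec (κ g)) (e y) - e y = e (conjAct κ g y - y)
      rw [H761.conjL_apply, H57.conjAct_congr57 κ (e y) (hsec (κ g)).symm, map_sub, hcomm]
    · rw [map_zero]
      exact Submodule.zero_mem _
    · intro w w' _ _ hw hw'
      rw [map_add]
      exact Submodule.add_mem _ hw hw'
    · intro w _ hw
      rw [map_neg]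
      exact Submodule.neg_mem _ hw
  have hVB : V ≤ B := le_of_le_sup_map_nilp59 s hss V B hW hB hnil Finset.univ hker
  -- separatedness
  have hdiv : ∀ k : ℕ, ∀ x ∈ V, ∃ z ∈ V, x = ϖ ^ k • z := by
    intro k
    induction k with
    | zero => exact fun x hx => ⟨x, hx, by simp⟩
    | succ k ih =>
      intro x hx
      obtain ⟨z, hz, rfl⟩ := ih x hx
      obtain ⟨z', hz', hzz'⟩ := hVB hz
      refine ⟨z', hz', ?_⟩
      rw [← hzz', LinearMap.smul_apply, Module.End.one_apply, smul_smul, pow_succ]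
  intro x hx
  have hxV : x ∈ V := ⟨x, hx⟩
  refine AddMonoidHom.ext fun g => ?_
  apply hsep
  intro k
  obtain ⟨z, -, hz⟩ := hdiv k x hxV
  rw [hz]
  exact ⟨z g, rfl⟩

end Fermat.Agent.S38.H31
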