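import Fermat.Agent.S38.H59.MinZeroGlue
import Fermat.Agent.S38.H31.MinZeroAux
import Fermat.Agent.S59.MFree.H779.EllAux
import Fermat.Agent.S59.TW.Aut.H186.AuxPrimePkg
import Fermat.Agent.S59.TW.Aut.H31.LocBij

/-!
# Cell (B2) of the S59 moonshot: leaf IA-MINZERO FOR EVERY ODD `p` and EVERY type `t` (helper31)

* `cor_eq_zero_of_min31` : Z1 + Z5 + Z2 of helper59's `minZero_gen59`, which never use `5 ≤ p`:
  under (MIN) at the base level `N₀`, `cor` kills the localisation `V'` of `X_K(𝒪)`,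
  `K = Γ₀(N₀) ∩ Γ_H(qv)`.
* `minZero_gen_odd31` : `minZero_gen59` WITHOUT `5 ≤ p` (any base level `N₀`, any `Sig`, any
  `t : PType`): for `p ≥ 5` it is `minZero_gen59`; for `p = 3` the piece Z4 is
  `eq_zero_of_cor_eq_zero_aux31` at an auxiliary prime `r ≡ 2 mod 3`, `(r, c) ∈ TsetOf PQ`,
  `c` a unit (`Aut.H186.exists_aux3_tset_h186`), (Ell at `r`) = `MFree.H779.ellAux_h779`,
  `T_r` onto on `V'` = `Aut.H31.locPart_TK_sub_bij_h31` at `u = 0`.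
* `IAMinZeroOddStatement31` / `iaMinZeroOdd31` : `Hecke.IAMinZeroStatement` VERBATIM minus the
  binder `_hp5`; `iaMinZero_of_odd31` recovers the frozen leaf.
-/

set_option autoImplicit false
set_option linter.style.haveILetI false

open Polynomial IsLocalRing CongruenceSubgroup
open scoped MatrixGroups

namespace Fermat.Agent.S38.H31

open Fermat.Agent.S59.Arch Fermat.Agent.S59.TW.H959 Fermat.Agent.S59.TW Fermat.Agent.S59.H765
open Fermat.Agent.S59.TW.H653 Fermat.Agent.S59.TW.Aut Fermat.Agent.S59.MFree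
open Fermat.Agent.S59.MFree.H587
open Fermat.Agent.S38.IA Fermat.Agent.S38.IA.Hecke Fermat.Agent.S38.H916
open Fermat.Agent.S38.H719 Fermat.Agent.S38.H841 Fermat.Agent.S59.H105
open Fermat.Agent.S38.H59
open CuspForm

section Gen

variable (p : ℕ) [Fact p.Prime]
  (𝒪 : Type) [CommRing 𝒪] [IsDomain 𝒪] [IsDiscreteValuationRing 𝒪]
  [IsAdicComplete (maximalIdeal 𝒪) 𝒪] [Finite (ResidueField 𝒪)] [CharZero 𝒪]
  (ρbar : ResidualGaloisRep (ResidueField 𝒪))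

/-- **Z1 + Z5 + Z2, every odd `p`**: under (MIN) at the base level, `cor` kills the localised
part. -/
theorem cor_eq_zero_of_min31 (Smin : Finset ℕ) (h : ResidualHyp p 𝒪 ρbar Smin)
    (N₀ : ℕ) (hN₀ : N₀ ≠ 0) (Sig : Finset ℕ) (hSigP : ∀ q ∈ Sig, q.Prime) (hsub : Smin ⊆ Sig)
    (hN₀S : ∀ q : ℕ, q.Prime → q ∣ N₀ → q ∈ Sig)
    (hmin : ¬ ResModular 𝒪 ρbar N₀ Sig)
    (t : PType) [NeZero (wilesLevel p t Smin Sig)] (PQ : HeckePkg p 𝒪 ρbar t Smin Sig)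
    {r : ℕ} (qv : Fin r → ℕ) (hinj : Function.Injective qv) (hqvP : ∀ j, (qv j).Prime)
    (hqvS : ∀ j, qv j ∈ Sig) (hqvN : ∀ j, ¬ qv j ∣ N₀)
    (α : Fin r → 𝒪) (hunit : ∀ j, IsUnit (α j ^ 2 - 1))
    (V' : Submodule 𝒪 (Additive (KG p N₀ qv) →+ 𝒪))
    (hV' : IsLocPart (isMid_KG p N₀ qv) (TsetOf PQ) (UsetOf qv α) V')
    (x : Additive (kerSub (gKappa p N₀ qv)) →+ 𝒪) (hxV : x ∈ V') :
    cor (gKappa p N₀ qv) x = 0 := by
  classical
  have hp : p.Prime := Fact.out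
  have hM : NeZero (gLevel N₀ qv) := neZero_gLevel_h916 N₀ qv hN₀ hqvP
  haveI : NeZero N₀ := ⟨hN₀⟩
  have hqne : ∀ s, NeZero (qv s) := fun s => ⟨(hqvP s).ne_zero⟩
  obtain ⟨ϖ, hϖ0, hϖ⟩ := exists_uniformizer 𝒪
  have hϖm : ϖ ∈ maximalIdeal 𝒪 := by
    rw [hϖ]
    exact Ideal.mem_span_singleton_self ϖ
  have hsepO : ∀ a : 𝒪, (∀ n : ℕ, ∃ z : 𝒪, a = ϖ ^ n • z) → a = 0 := fun a ha => o_sep hϖ a ha
  have hΓ1 := gKappa_trivial_h916 p N₀ qv
  -- the eigen-data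
  have hTmem : ∀ l : ℕ, l.Prime → l ∉ Sig → ¬ l ∣ wilesLevel p t Smin Sig :=
    fun l hl hlS hdvd =>
      hlS (mem_of_prime_dvd_wilesLevel hp h.hSmin hSigP h.hpSmin hsub l hl hdvd)
  have hcoe : ∀ l : ℕ, l ∉ Sig → l ∉ (↑Sig : Set ℕ) := fun l hl hl' => hl (Finset.mem_coe.mp hl')
  let c : ℕ → 𝒪 := fun l =>
    if hl : l.Prime ∧ l ∉ Sig then
      (residue_surjective (PQ.θ (heckeAlgebra.T hl.1 (hTmem l hl.1 hl.2) (hcoe l hl.2)))).choose
    else 0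
  have hcres : ∀ (l : ℕ) (hl : l.Prime) (hlS : l ∉ Sig),
      residue 𝒪 (c l) = PQ.θ (heckeAlgebra.T hl (hTmem l hl hlS) (hcoe l hlS)) := by
    intro l hl hlS
    simp only [c, dif_pos (And.intro hl hlS)]
    exact (residue_surjective
      (PQ.θ (heckeAlgebra.T hl (hTmem l hl hlS) (hcoe l hlS)))).choose_spec
  let α' : ℕ → 𝒪 := fun q' => if hq' : ∃ j, qv j = q' then α hq'.choose else 0
  have hα' : ∀ j, α' (qv j) = α j := by
    intro j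
    have hex : ∃ i, qv i = qv j := ⟨j, rfl⟩
    simp only [α', dif_pos hex]
    exact congrArg α (hinj hex.choose_spec)
  let Ipr : Set ℕ := {l | l.Prime ∧ l ∉ Sig}
  have hnd : (List.ofFn qv).Nodup := List.nodup_ofFn.mpr hinj
  -- Z1: the part
  have hpart : IsPartKer (gKappa p N₀ qv) hΓ1 ϖ Ipr c {q' | q' ∈ List.ofFn qv} α' x := by
    refine ⟨fun l _ hl hlI => ?_, fun q' _ hq' hq'Q => ?_⟩
    · have hlp : l.Prime := hlI.1
      have hmem : (l, c l) ∈ TsetOf PQ :=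
        ⟨hlp, hTmem l hlp hlI.2, hcoe l hlI.2, hcres l hlp hlI.2⟩
      obtain ⟨m, hm⟩ := isLocPart_nilpT (isMid_KG p N₀ qv) hV' hϖ hl hmem
      have hnil := topNilAt_of_nilp59 V' (shiftE 𝒪 (TKL (isMid_KG p N₀ qv) 𝒪 hl) (c l)) ϖ m hm hxV
      have heq : shiftBy (heckeKerLin hl (gKappa p N₀ qv) hΓ1 𝒪) (c l) =
          shiftE 𝒪 (TKL (isMid_KG p N₀ qv) 𝒪 hl) (c l) := by
        apply LinearMap.ext
        intro y
        show heckeKerLin hl (gKappa p N₀ qv) hΓ1 𝒪 y - c l • y =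
          TK (gLevel N₀ qv) (kerSub (gKappa p N₀ qv)) l y - c l • y
        congr 1
        exact heckeKer_eq_TK hl (gKappa p N₀ qv) hΓ1 y
      rw [heq]
      exact hnil
    · obtain ⟨j, rfl⟩ := List.mem_ofFn.mp hq'Q
      have hmem : (qv j, α j) ∈ UsetOf qv α := ⟨j, rfl⟩
      obtain ⟨m, hm⟩ := isLocPart_nilpU (isMid_KG p N₀ qv) hV' hϖ hq' hmem
      have hnil := topNilAt_of_nilp59 V' (shiftE 𝒪 (UKL (isMid_KG p N₀ qv) 𝒪 hq') (α j)) ϖ m hm hxV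
      have heq : shiftBy (UqKerLin (gKappa p N₀ qv) hΓ1 hq' 𝒪) (α' (qv j)) =
          shiftE 𝒪 (UKL (isMid_KG p N₀ qv) 𝒪 hq') (α j) := by
        rw [hα']
        apply LinearMap.ext
        intro y
        rfl
      rw [heq]
      exact hnil
  -- Z5: (MIN) at level `N₀`
  have hc : ∀ (l : ℕ), l.Prime → l ∉ Sig →
      ∀ B : ValuationSubring Fermat.Agent.S31.Qb, B.LiesOverPrime l →
        ∀ σ : Fermat.Agent.S31.GQ, B.IsFrobeniusAt σ l →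
          LinearMap.charpoly (ρbar.ρ σ) =
            X ^ 2 - C (residue 𝒪 (c l)) * X + C ((l : ResidueField 𝒪)) := by
    intro l hl hlS B hB σ hσ
    rw [hcres l hl hlS]
    exact Fermat.Agent.S59.TW.Aut.H31.resFrobCond_of_pkg PQ l hl (hTmem l hl hlS) (hcoe l hlS)
      B hB σ hσ
  have hmin' : ∀ y : Additive (Gamma0 N₀) →+ 𝒪, IsPart 𝒪 𝒪 ϖ Ipr c ∅ α' N₀ y → y = 0 :=
    dictMin_isPart_h841 p 𝒪 ρbar h.hp2 h.hp𝒪 h.habs h.hsplit N₀ Sig (hsub h.hpSmin) hN₀S hmin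
      ϖ hϖm c hc Ipr (fun l hl hlS => ⟨hl, hlS⟩) α'
  -- Z2: the chain
  have hLall : ∀ q' ∈ List.ofFn qv,
      q'.Prime ∧ ¬ q' ∣ N₀ ∧ q' ∉ Ipr ∧ IsUnit (α' q' ^ 2 - 1) := by
    intro q' hq'
    obtain ⟨j, rfl⟩ := List.mem_ofFn.mp hq'
    exact ⟨hqvP j, hqvN j, fun hI => hI.2 (hqvS j), by rw [hα']; exact hunit j⟩
  have hchain := eq_zero_of_isPart_chain (O := 𝒪) (A := 𝒪) (ϖ := ϖ) (Ipr := Ipr) (c := c)
    (α := α') hsepO (List.ofFn qv) N₀ ∅ hN₀ hnd hLall hmin'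
  have hchain' : ∀ (M : ℕ), M = (List.ofFn qv).foldl (· * ·) N₀ →
      ∀ y : Additive (Gamma0 M) →+ 𝒪,
        IsPart 𝒪 𝒪 ϖ Ipr c (∅ ∪ {q' | q' ∈ List.ofFn qv}) α' M y → y = 0 := by
    intro M hMeq
    subst hMeq
    exact hchain
  refine hchain' _ (foldl_ofFn_eq_gLevel59 N₀ qv).symm _ (hpart.cor.mono ?_)
  intro z hz
  rcases hz with hz | hz
  · exact absurd hz (Set.notMem_empty z)
  · exact hz

/-- **IA-MINZERO, general form, EVERY ODD `p`** (`p ≠ 2` is a field of `ResidualHyp`), every base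
level `N₀`, every `Sig`, every type `t`. -/
theorem minZero_gen_odd31 (Smin : Finset ℕ) (h : ResidualHyp p 𝒪 ρbar Smin)
    (N₀ : ℕ) (hN₀ : N₀ ≠ 0) (Sig : Finset ℕ) (hSigP : ∀ q ∈ Sig, q.Prime) (hsub : Smin ⊆ Sig)
    (hN₀S : ∀ q : ℕ, q.Prime → q ∣ N₀ → q ∈ Sig)
    (hmin : ¬ ResModular 𝒪 ρbar N₀ Sig)
    (t : PType) [NeZero (wilesLevel p t Smin Sig)] (PQ : HeckePkg p 𝒪 ρbar t Smin Sig)
    {r : ℕ} (qv : Fin r → ℕ) (hinj : Function.Injective qv) (hqvP : ∀ j, (qv j).Prime)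
    (hqvS : ∀ j, qv j ∈ Sig) (hqvN : ∀ j, ¬ qv j ∣ N₀)
    (α : Fin r → 𝒪) (hunit : ∀ j, IsUnit (α j ^ 2 - 1))
    (V' : Submodule 𝒪 (Additive (KG p N₀ qv) →+ 𝒪))
    (hV' : IsLocPart (isMid_KG p N₀ qv) (TsetOf PQ) (UsetOf qv α) V') : V' = ⊥ := by
  classical
  by_cases hp5 : 5 ≤ p
  · exact minZero_gen59 p 𝒪 ρbar hp5 Smin h N₀ hN₀ Sig hSigP hsub hN₀S hmin t PQ qv hinj hqvP
      hqvS hqvN α hunit V' hV'
  -- `p = 3`
  have hp : p.Prime := Fact.out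
  have hp3 : p = 3 := by
    have h2 := h.hp2
    have hlt : p < 5 := not_le.mp hp5
    have h1 := hp.two_le
    have h4 : p ≠ 4 := by
      rintro rfl
      exact absurd hp (by decide)
    omega
  have hM : NeZero (gLevel N₀ qv) := neZero_gLevel_h916 N₀ qv hN₀ hqvP
  haveI : NeZero N₀ := ⟨hN₀⟩
  obtain ⟨ϖ, hϖ0, hϖ⟩ := exists_uniformizer 𝒪
  have hϖp : ϖ ∣ (p : 𝒪) := by
    have := h.hp𝒪
    rw [hϖ] at this
    exact Ideal.mem_span_singleton.mp this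
  have hsepO : ∀ a : 𝒪, (∀ n : ℕ, ∃ z : 𝒪, a = ϖ ^ n • z) → a = 0 := fun a ha => o_sep hϖ a ha
  -- `κ`
  have hred := gRed_surjective_h916 N₀ qv hN₀ hinj hqvP
  have hκ := gKappa_surjective_h916 p N₀ qv hred
  letI : Fintype (GDelta p qv) := Fintype.ofFinite _
  have hcard : ∃ a : ℕ, Fintype.card (GDelta p qv) = p ^ a :=
    ⟨_, by rw [← Nat.card_eq_fintype_card]; exact card_gDelta_h916 p qv hqvP⟩
  have hcard3 : ∃ a : ℕ, Fintype.card (GDelta p qv) = 3 ^ a := by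
    obtain ⟨a, ha⟩ := hcard
    exact ⟨a, by rw [ha, hp3]⟩
  have hΓ1 := gKappa_trivial_h916 p N₀ qv
  obtain ⟨e, he, heV, hVe, -, -, hD, -⟩ := hV'.exists_proj
  have hconj : ∀ (g : Gamma0 (gLevel N₀ qv))
      (z : Additive (kerSub (gKappa p N₀ qv)) →+ 𝒪),
      conjAct (gKappa p N₀ qv) g z =
        diamondU (isMid_KG p N₀ qv) (dUnit (gLevel N₀ qv) g⁻¹) z := by
    intro g z
    rw [conjAct_eq_diamond (gKappa p N₀ qv) hΓ1 g z, diamond_eq_diamondU]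
    rfl
  have hcor : ∀ x : Additive (kerSub (gKappa p N₀ qv)) →+ 𝒪, e x = x →
      cor (gKappa p N₀ qv) x = 0 := by
    intro x hx
    have hxV : x ∈ V' := by
      rw [← hx]
      exact heV x
    exact cor_eq_zero_of_min31 p 𝒪 ρbar Smin h N₀ hN₀ Sig hSigP hsub hN₀S hmin t PQ qv hinj hqvP
      hqvS hqvN α hunit V' hV' x hxV
  -- the auxiliary prime
  obtain ⟨r', c', hmem, hr'P, -, hr'S, -, hr'3, hc'⟩ :=
    Fermat.Agent.S59.TW.Aut.H186.exists_aux3_tset_h186 hp3 h PQ ∅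
  haveI : Fact r'.Prime := ⟨hr'P⟩
  have hr'M : ¬ r' ∣ gLevel N₀ qv := by
    intro hdvd
    unfold gLevel at hdvd
    rcases (Nat.Prime.dvd_mul hr'P).mp hdvd with h1 | h1
    · exact hr'S (hN₀S r' hr'P h1)
    · obtain ⟨j, -, hj⟩ := (Prime.dvd_finsetProd_iff hr'P.prime _).mp h1
      have : r' = qv j := (Nat.prime_dvd_prime_iff_eq hr'P (hqvP j)).mp hj
      exact hr'S (this ▸ hqvS j)
  have hbij := Fermat.Agent.S59.TW.Aut.H31.locPart_TK_sub_bij_h31 (u := (0 : 𝒪)) hV' hr'M hmem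
    (by rw [sub_zero]; exact hc')
  have hsurj : ∀ y : Additive (kerSub (gKappa p N₀ qv)) →+ 𝒪, e y = y →
      ∃ x, e x = x ∧ heckeKer hr'M (gKappa p N₀ qv) hΓ1 x = y := by
    intro y hy
    have hyV : y ∈ V' := by
      rw [← hy]
      exact heV y
    obtain ⟨x, hxV, hxy⟩ := hbij.1 y hyV
    refine ⟨x, hVe x hxV, ?_⟩
    rw [heckeKer_eq_TK hr'M (gKappa p N₀ qv) hΓ1 x]
    rw [zero_smul, sub_zero] at hxy
    exact hxy
  have hellr : ∀ g : Gamma0 (gLevel N₀ qv), (g : SL(2, ℤ)) ∈ Gamma0 r' → IsOfFinOrder g →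
      gKappa p N₀ qv g = 1 := fun g hg hfin =>
    H779.ellAux_h779 (gLevel N₀ qv) r' hr'3 (GDelta p qv) (gKappa p N₀ qv) hcard3 g hg hfin
  have hzero := eq_zero_of_cor_eq_zero_aux31 h.hp2 (NeZero.ne (gLevel N₀ qv))
    (gKappa p N₀ qv) hΓ1 hκ hcard ϖ hϖp (fun a ha => hsepO a fun n => by
      obtain ⟨z, hz⟩ := ha n
      exact ⟨z, hz⟩) e he
    (fun g x => by rw [hconj, hconj]; exact hD _ x) hcor hr'M hellr hsurj
  rw [eq_bot_iff]
  intro x hx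
  rw [Submodule.mem_bot]
  exact hzero x (hVe x hx)

end Gen

/-! ## The leaf, without `5 ≤ p` -/

/-- `Hecke.IAMinZeroStatement` VERBATIM minus the binder `_hp5 : 5 ≤ p`. -/
def IAMinZeroOddStatement31 : Prop :=
  ∀ (p : ℕ) [Fact p.Prime]
    (𝒪 : Type) [CommRing 𝒪] [IsDomain 𝒪] [IsDiscreteValuationRing 𝒪]
    [IsAdicComplete (maximalIdeal 𝒪) 𝒪] [Finite (ResidueField 𝒪)] [CharZero 𝒪]
    (ρbar : ResidualGaloisRep (ResidueField 𝒪)) (Smin : Finset ℕ)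
    (_h : ResidualHyp p 𝒪 ρbar Smin)
    (_hflat : (GaloisRepAdic.ofResidualGaloisRep ρbar).IsFlatAt p)
    (Piv : Finset ℕ) (_hPiv : IsPivotSet p ρbar Smin Piv)
    (_hmin : ∀ q ∈ Piv, ∀ S : Finset ℕ,
      ¬ ResModular 𝒪 ρbar (ribetLevel p Smin (Piv.erase q)) S)
    (n r : ℕ) (qv : Fin r → ℕ) (_hq : IsTWSet p ρbar (Smin ∪ Piv) n qv)
    [NeZero (wilesLevel p .flat Smin (Smin ∪ Piv ∪ Finset.univ.image qv))]
    (PQ : HeckePkg p 𝒪 ρbar .flat Smin (Smin ∪ Piv ∪ Finset.univ.image qv))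
    (α : Fin r → 𝒪) (_hα : IsFrobLift ρbar qv α)
    (q : ℕ) (_hqP : q ∈ Piv)
    (V' : Submodule 𝒪 (Additive (KG p (ribetLevel p Smin (Piv.erase q)) qv) →+ 𝒪)),
    IsLocPart (isMid_KG p (ribetLevel p Smin (Piv.erase q)) qv) (TsetOf PQ) (UsetOf qv α) V' →
      V' = ⊥

/-- **IA-MINZERO for every odd `p`** (type `.flat`). -/
theorem iaMinZeroOdd31 : IAMinZeroOddStatement31 := by
  intro p _ 𝒪 _ _ _ _ _ _ ρbar Smin h _ Piv hPiv hmin n r qv hq _ PQ α hα q hqP V' hV'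
  have hPivP : ∀ q' ∈ Piv, q'.Prime := fun q' hq' => (hPiv q' hq').1
  have hPivP' : ∀ q' ∈ Piv.erase q, q'.Prime := fun q' hq' => hPivP q' (Finset.mem_of_mem_erase hq')
  have hqvP : ∀ j, (qv j).Prime := fun j => (hq.2.1 j).1
  have hSigP : ∀ q' ∈ Smin ∪ Piv ∪ Finset.univ.image qv, q'.Prime := by
    intro q' hq'
    rcases Finset.mem_union.mp hq' with h1 | h1
    · rcases Finset.mem_union.mp h1 with h2 | h2
      · exact h.hSmin q' h2
      · exact hPivP q' h2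
    · obtain ⟨j, -, rfl⟩ := Finset.mem_image.mp h1
      exact hqvP j
  have hsub : Smin ⊆ Smin ∪ Piv ∪ Finset.univ.image qv := fun x hx =>
    Finset.mem_union_left _ (Finset.mem_union_left _ hx)
  have hLS : ∀ q' : ℕ, q'.Prime → q' ∣ ribetLevel p Smin (Piv.erase q) → q' ∈ Smin ∪ Piv := by
    intro q' hq' hdvd
    rcases Finset.mem_union.mp (mem_of_dvd_ribetLevel59 h.hSmin hPivP' hq' hdvd) with h1 | h1
    · exact Finset.mem_union_left _ h1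
    · exact Finset.mem_union_right _ (Finset.mem_of_mem_erase h1)
  exact minZero_gen_odd31 p 𝒪 ρbar Smin h (ribetLevel p Smin (Piv.erase q))
    (ribetLevel_ne_zero59 h.hSmin hPivP') (Smin ∪ Piv ∪ Finset.univ.image qv) hSigP hsub
    (fun q' hq' hdvd => Finset.mem_union_left _ (hLS q' hq' hdvd))
    (hmin q hqP _) .flat PQ qv hq.1 hqvP
    (fun j => Finset.mem_union_right _ (Finset.mem_image_of_mem qv (Finset.mem_univ j)))
    (fun j hdvd => (hq.2.1 j).2.1 (hLS (qv j) (hqvP j) hdvd))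
    α (fun j => isUnit_sq_sub_one59 p 𝒪 ρbar h.hdet (Smin ∪ Piv)
      (Finset.mem_union_left _ h.hpSmin) n r qv hq α hα j)
    V' hV'

/-- The frozen leaf of the row HARD is a special case. -/
theorem iaMinZero_of_odd31 : IAMinZeroStatement :=
  fun p _ _ 𝒪 _ _ _ _ _ _ ρbar Smin h hflat Piv hPiv hmin n r qv hq _ PQ α hα q hqP V' hV' =>
    iaMinZeroOdd31 p 𝒪 ρbar Smin h hflat Piv hPiv hmin n r qv hq PQ α hα q hqP V' hV'

end Fermat.Agent.S38.H31
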